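import Fermat.Agent.S15.M1a.Basic

/-!
# S15 / M1a : `℘'` and `℘''` have no common zero
-/

set_option autoImplicit false

noncomputable section

namespace Fermat.Agent.S15.M1a

open Filter Topology PeriodPair

variable (L : PeriodPair)

/-- **(ND)**  PROOF.  `e := ℘ w`.  `h2`: `g₂ = 12 e²`; `h1` + `L.derivWeierstrassP_sq`: `g₃ = 4e³ - g₂e = -8e³`.  Hence for `z ∉ Λ`,
with `u z := ℘ z - e`: `℘' z ^ 2 = 4 u² (u + 3e)` (`ring`-type identity).
Orders at `w`: `u` is analytic at `w`, `u w = 0`, its order `n` is `≠ ⊤` (`order_wp_sub_const_ne_top`) and `> 0`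
(`AnalyticAt.meromorphicOrderAt_eq`, `analyticOrderAt` positive iff the value vanishes; or
`tendsto_zero_iff_meromorphicOrderAt_pos`); write it `(n : ℤ)`, `n ≥ 1`.
`deriv u = ℘'` (`L.deriv_weierstrassP`, `deriv_sub_const`) has order `n - 1` (`meromorphicOrderAt_deriv_eq_sub_one`), so the left hand
side has order `2n - 2` (`meromorphicOrderAt_pow`); the right hand side has order `2n + ord (4 (u + 3e)) ≥ 2n`
(`meromorphicOrderAt_mul`, `AnalyticAt.meromorphicOrderAt_nonneg`).  The two functions agree near `w`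
(`meromorphicOrderAt_congr`).  Contradiction (`WithTop ℤ` arithmetic: `lift` to `ℤ`, `omega`). -/
theorem no_double {w : ℂ} (hw : w ∉ L.lattice) (h1 : ℘'[L] w = 0) (h2 : wpp L w = 0) : False := by
  set e : ℂ := ℘[L] w with he
  have hg2 : L.g₂ = 12 * e ^ 2 := by
    unfold wpp at h2
    linear_combination (-2 : ℂ) * h2
  have hg3 : L.g₃ = -8 * e ^ 3 := by
    have h := L.derivWeierstrassP_sq w hw
    rw [h1, ← he, hg2] at h
    linear_combination h
  -- the function `u`
  set u : ℂ → ℂ := fun z => ℘[L] z - e with hu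
  have huan : AnalyticAt ℂ u w := (analyticAt_wp L hw).sub analyticAt_const
  have humer : MeromorphicAt u w := huan.meromorphicAt
  have hutop : meromorphicOrderAt u w ≠ ⊤ := order_wp_sub_const_ne_top L e w
  have hupos : 0 < meromorphicOrderAt u w := by
    rw [← tendsto_zero_iff_meromorphicOrderAt_pos humer]
    have h := huan.continuousAt.tendsto.mono_left (nhdsWithin_le_nhds (s := {w}ᶜ))
    have h0 : u w = 0 := by simp [hu, he]
    rwa [h0] at h
  obtain ⟨n, hn⟩ : ∃ n : ℤ, meromorphicOrderAt u w = (n : WithTop ℤ) :=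
    ⟨(meromorphicOrderAt u w).untop hutop, (WithTop.coe_untop _ hutop).symm⟩
  have hn1 : 1 ≤ n := by
    rw [hn] at hupos
    have : (0 : ℤ) < n := by exact_mod_cast hupos
    omega
  have hderiv : deriv u = ℘'[L] := by
    funext z
    rw [hu, deriv_sub_const, L.deriv_weierstrassP]
  have hord' : meromorphicOrderAt ℘'[L] w = ((n - 1 : ℤ) : WithTop ℤ) := by
    rw [← hderiv]
    exact meromorphicOrderAt_deriv_eq_sub_one (by
      have : n ≠ 0 := by omega
      exact_mod_cast this) hn
  have hmer' : MeromorphicAt ℘'[L] w := (analyticAt_wp' L hw).meromorphicAt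
  have hlhs : meromorphicOrderAt (℘'[L] ^ 2) w = ((2 * (n - 1) : ℤ) : WithTop ℤ) := by
    rw [meromorphicOrderAt_pow hmer', hord']
    norm_cast
  -- right hand side
  set r : ℂ → ℂ := fun z => 4 * (u z + 3 * e) with hr
  have hran : AnalyticAt ℂ r w := analyticAt_const.mul (huan.add analyticAt_const)
  have hrnn : 0 ≤ meromorphicOrderAt r w := hran.meromorphicOrderAt_nonneg
  have hrhs : meromorphicOrderAt (u ^ 2 * r) w =
      ((2 * n : ℤ) : WithTop ℤ) + meromorphicOrderAt r w := by
    rw [meromorphicOrderAt_mul (humer.pow 2) hran.meromorphicAt, meromorphicOrderAt_pow humer, hn]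
    norm_cast
  have hcongr : (℘'[L] ^ 2) =ᶠ[𝓝[≠] w] (u ^ 2 * r) := by
    filter_upwards [eventually_notMem_lattice L w] with z hz
    have h := L.derivWeierstrassP_sq z hz
    simp only [Pi.pow_apply, Pi.mul_apply, hu, hr]
    rw [h, hg2, hg3]
    ring
  have hEq := meromorphicOrderAt_congr hcongr
  rw [hlhs, hrhs] at hEq
  have hle : ((2 * n : ℤ) : WithTop ℤ) ≤ ((2 * (n - 1) : ℤ) : WithTop ℤ) := by
    rw [hEq]
    exact le_add_of_nonneg_right hrnn
  have : 2 * n ≤ 2 * (n - 1) := by exact_mod_cast hle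
  omega

end Fermat.Agent.S15.M1a
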