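import Fermat.Agent.S15.M1a.Add
import Fermat.Agent.S15.M1a.NoDouble

/-!
# S15 / M1a : `℘` has degree `2`, zeros of `℘'`
-/

set_option autoImplicit false

noncomputable section

namespace Fermat.Agent.S15.M1a

open Filter Topology PeriodPair

variable (L : PeriodPair)

/-- **(D2a)** if `℘ z = ℘ w` and `z ≢ ± w` then `℘' z = ℘' w = 0`.  PROOF: `add_poly L hz hw h₊` gives `(℘'z - ℘'w)² = 0`;
`add_poly L hz (neg_notMem L hw) h₋'` (`z + -w = z - w`), `L.weierstrassP_neg`, `L.derivWeierstrassP_neg` give `(℘'z + ℘'w)² = 0`. -/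
theorem wp'_eq_zero_of_wp_eq {z w : ℂ} (hz : z ∉ L.lattice) (hw : w ∉ L.lattice)
    (h : ℘[L] z = ℘[L] w) (hm : z - w ∉ L.lattice) (hp : z + w ∉ L.lattice) :
    ℘'[L] z = 0 ∧ ℘'[L] w = 0 := by
  have h1 := add_poly L hz hw hp
  have h2 := add_poly L hz (neg_notMem L hw) (by rwa [← sub_eq_add_neg])
  rw [L.weierstrassP_neg, L.derivWeierstrassP_neg] at h2
  rw [h, sub_self] at h1 h2
  have e1 : ℘'[L] z - ℘'[L] w = 0 := by
    apply pow_eq_zero_iff (two_ne_zero) |>.mp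
    rw [h1]
    ring
  have e2 : ℘'[L] z - -℘'[L] w = 0 := by
    apply pow_eq_zero_iff (two_ne_zero) |>.mp
    rw [h2]
    ring
  constructor
  · linear_combination (1 / 2 : ℂ) * e1 + (1 / 2 : ℂ) * e2
  · linear_combination (-1 / 2 : ℂ) * e1 + (1 / 2 : ℂ) * e2

/-- **(D2b)** under the same hypotheses `℘'' w = 0`.  PROOF.  `e := ℘ w = ℘ z`, `℘' w = 0`, so `4e³ - g₂e - g₃ = 0`.
For `z'` in a punctured neighbourhood of `z` (`z' ∉ Λ`, `z' + w ∉ Λ`, `℘ z' ≠ e`): `add_poly`: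
`℘'z'² = 4(℘(z'+w) + ℘z' + e)(℘z' - e)²` and `℘'z'² = 4℘z'³ - g₂℘z' - g₃ = (℘z' - e)(4(℘z'² + e℘z' + e²) - g₂)`; cancel `℘z' - e`:
`4(℘z'² + e℘z' + e²) - g₂ = 4(℘(z'+w) + ℘z' + e)(℘z' - e)`.  Let `z' → z` (continuity, `tendsto_nhds_unique`): `12e² - g₂ = 0`. -/
theorem wpp_eq_zero_of_wp_eq {z w : ℂ} (hz : z ∉ L.lattice) (hw : w ∉ L.lattice)
    (h : ℘[L] z = ℘[L] w) (hm : z - w ∉ L.lattice) (hp : z + w ∉ L.lattice) : wpp L w = 0 := by
  have hw' : ℘'[L] w = 0 := (wp'_eq_zero_of_wp_eq L hz hw h hm hp).2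
  have hcub := L.derivWeierstrassP_sq w hw
  rw [hw'] at hcub
  -- the auxiliary function
  have hev : ∀ᶠ z' in 𝓝[≠] z,
      4 * (℘[L] z' ^ 2 + ℘[L] w * ℘[L] z' + ℘[L] w ^ 2) - L.g₂
        - 4 * (℘[L] (z' + w) + ℘[L] z' + ℘[L] w) * (℘[L] z' - ℘[L] w) = 0 := by
    have h1' : ∀ᶠ z' in 𝓝 z, z' + w ∉ L.lattice :=
      (L.isClosed_lattice.isOpen_compl.preimage (continuous_add_const w)).mem_nhds hp
    have h1 : ∀ᶠ z' in 𝓝[≠] z, z' + w ∉ L.lattice := h1'.filter_mono nhdsWithin_le_nhds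
    filter_upwards [eventually_notMem_lattice L z, h1, eventually_wp_ne L (℘[L] w) z]
      with z' hz' hz'w hne
    have e1 := add_poly L hz' hw hz'w
    have e2 := L.derivWeierstrassP_sq z' hz'
    rw [hw', sub_zero, e2] at e1
    have hne' : ℘[L] z' - ℘[L] w ≠ 0 := sub_ne_zero.2 hne
    apply mul_left_cancel₀ hne'
    linear_combination e1 + hcub
  have hc1 : ContinuousAt ℘[L] z := (analyticAt_wp L hz).continuousAt
  have hc2 : ContinuousAt (fun z' => ℘[L] (z' + w)) z :=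
    ContinuousAt.comp (f := fun z' => z' + w) (g := ℘[L]) (analyticAt_wp L hp).continuousAt
      (by fun_prop)
  have hc : ContinuousAt (fun z' => 4 * (℘[L] z' ^ 2 + ℘[L] w * ℘[L] z' + ℘[L] w ^ 2) - L.g₂
        - 4 * (℘[L] (z' + w) + ℘[L] z' + ℘[L] w) * (℘[L] z' - ℘[L] w)) z := by
    fun_prop
  have h0 := eq_zero_of_order_eq_top (meromorphicOrderAt_eq_top_iff.2 hev) hc
  rw [h] at h0
  rw [wpp]
  linear_combination h0 / 2

/-- **(D2)** `℘` has degree `2`. -/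
theorem wp_eq_iff {z w : ℂ} (hz : z ∉ L.lattice) (hw : w ∉ L.lattice) :
    ℘[L] z = ℘[L] w ↔ (z - w ∈ L.lattice ∨ z + w ∈ L.lattice) := by
  constructor
  · intro h
    by_contra hcon
    push_neg at hcon
    exact no_double L hw (wp'_eq_zero_of_wp_eq L hz hw h hcon.1 hcon.2).2
      (wpp_eq_zero_of_wp_eq L hz hw h hcon.1 hcon.2)
  · rintro (h | h)
    · exact wp_congr L h
    · rw [← L.weierstrassP_neg w]
      exact wp_congr L (by simpa using h)

/-- **(D3)** zeros of `℘'`.  PROOF.  `←`: `℘' z = ℘' (z - 2z) = ℘' (-z) = - ℘' z` (`wp'_congr`, `L.derivWeierstrassP_neg`).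
`→`: if `2z ∉ Λ`, `dup_poly` gives `wpp z ^ 2 = 0`; `no_double`. -/
theorem wp'_eq_zero_iff {z : ℂ} (hz : z ∉ L.lattice) : ℘'[L] z = 0 ↔ 2 * z ∈ L.lattice := by
  constructor
  · intro h0
    by_contra h2z
    have h1 := dup_poly L hz h2z
    rw [h0] at h1
    have h2 : wpp L z = 0 := by
      apply pow_eq_zero_iff (two_ne_zero) |>.mp
      rw [h1]
      ring
    exact no_double L hz h0 h2
  · intro h2z
    have h1 : ℘'[L] z = ℘'[L] (-z) := wp'_congr L (by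
      have e : z - -z = 2 * z := by ring
      rwa [e])
    rw [L.derivWeierstrassP_neg] at h1
    linear_combination (1 / 2 : ℂ) * h1

end Fermat.Agent.S15.M1a
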