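import Fermat.Agent.S15.M1a.Euler

/-!
# S15 / M1a : addition and duplication formulas in polynomial form
-/

set_option autoImplicit false

noncomputable section

namespace Fermat.Agent.S15.M1a

open Filter Topology PeriodPair

variable (L : PeriodPair)

/-- generic addition formula for `℘`.  PROOF: `eul_eq L (s := z + w) (t := z)`, `z + w - z = w`, unfold `eul`. -/
theorem add_x {z w : ℂ} (hz : z ∉ L.lattice) (hw : w ∉ L.lattice) (hne : ℘[L] z ≠ ℘[L] w) :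
    ℘[L] (z + w) = ((℘'[L] z - ℘'[L] w) / (℘[L] z - ℘[L] w)) ^ 2 / 4 - ℘[L] z - ℘[L] w := by
  have e : z + w - z = w := by ring
  have h := eul_eq L (s := z + w) (t := z) hz (by rw [e]; exact hw) (by rw [e]; exact hne)
  unfold eul at h
  rw [e] at h
  exact h.symm

/-- if `℘ z ≠ ℘ w` then `z + w ∉ Λ`.  PROOF: `wp_congr` (`z - (-w) ∈ Λ`), `L.weierstrassP_neg`. -/
theorem add_notMem_of_ne {z w : ℂ} (hne : ℘[L] z ≠ ℘[L] w) : z + w ∉ L.lattice := by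
  intro h
  apply hne
  rw [← L.weierstrassP_neg w]
  refine wp_congr L ?_
  rw [sub_neg_eq_add]
  exact h

/-- **(ADD)** the addition formula in polynomial form, no genericity.  PROOF.  If `℘ z ≠ ℘ w`: `add_x`, `field_simp`.
In general both sides are continuous functions of `z' ` at `z' = z` (`z, z + w ∉ Λ`; `analyticAt_wp(')`.continuousAt,
composition with `· + w`) and they agree on a punctured neighbourhood of `z` (`eventually_wp_ne L (℘ w) z`,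
`eventually_notMem_lattice`): `tendsto_nhds_unique` along `𝓝[≠] z`. -/
theorem add_poly {z w : ℂ} (hz : z ∉ L.lattice) (hw : w ∉ L.lattice) (hzw : z + w ∉ L.lattice) :
    (℘'[L] z - ℘'[L] w) ^ 2 = 4 * (℘[L] (z + w) + ℘[L] z + ℘[L] w) * (℘[L] z - ℘[L] w) ^ 2 := by
  have hgen : ∀ z' : ℂ, z' ∉ L.lattice → ℘[L] z' ≠ ℘[L] w →
      (℘'[L] z' - ℘'[L] w) ^ 2 =
        4 * (℘[L] (z' + w) + ℘[L] z' + ℘[L] w) * (℘[L] z' - ℘[L] w) ^ 2 := by
    intro z' hz' hne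
    have hd : ℘[L] z' - ℘[L] w ≠ 0 := sub_ne_zero.2 hne
    rw [add_x L hz' hw hne]
    field_simp
    ring
  have c1 : ContinuousAt ℘[L] z := (analyticAt_wp L hz).continuousAt
  have c2 : ContinuousAt ℘'[L] z := (analyticAt_wp' L hz).continuousAt
  have c3 : ContinuousAt (fun z' => ℘[L] (z' + w)) z :=
    ContinuousAt.comp (f := fun z' => z' + w) (g := ℘[L]) (analyticAt_wp L hzw).continuousAt
      (by fun_prop)
  have cl : ContinuousAt (fun z' => (℘'[L] z' - ℘'[L] w) ^ 2) z :=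
    (c2.sub continuousAt_const).pow 2
  have cr : ContinuousAt (fun z' =>
      4 * (℘[L] (z' + w) + ℘[L] z' + ℘[L] w) * (℘[L] z' - ℘[L] w) ^ 2) z :=
    (continuousAt_const.mul ((c3.add c1).add continuousAt_const)).mul
      ((c1.sub continuousAt_const).pow 2)
  have hev : (fun z' => (℘'[L] z' - ℘'[L] w) ^ 2) =ᶠ[𝓝[≠] z] (fun z' =>
      4 * (℘[L] (z' + w) + ℘[L] z' + ℘[L] w) * (℘[L] z' - ℘[L] w) ^ 2) := by
    filter_upwards [eventually_wp_ne L (℘[L] w) z, eventually_notMem_lattice L z] with z' h1 h2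
    exact hgen z' h2 h1
  have tl := cl.tendsto.mono_left (nhdsWithin_le_nhds (s := {z}ᶜ))
  have tr := cr.tendsto.mono_left (nhdsWithin_le_nhds (s := {z}ᶜ))
  exact tendsto_nhds_unique (tl.congr' hev) tr

/-- generic addition formula for `℘'`.  PROOF.  On the open set `{z' ∉ Λ, ℘ z' ≠ ℘ w}` (a neighbourhood of `z`) the functions
`z' ↦ ℘ (z' + w)` and `z' ↦ ((℘'z' - ℘'w)/(℘z' - ℘w))²/4 - ℘z' - ℘w` coincide (`add_x`), so their derivatives at `z` coincide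
(`Filter.EventuallyEq.deriv_eq` / `HasDerivAt.unique`): with `x₁ = ℘z, P₁ = ℘'z, x₂ = ℘w, P₂ = ℘'w, μ = (P₁-P₂)/(x₁-x₂)`:
`℘'(z+w) = μ/2 * ((6x₁²-g₂/2)(x₁-x₂) - (P₁-P₂)P₁)/(x₁-x₂)² - P₁`.  Then use `add_x` for `℘(z+w)`, `P_i² = 4x_i³-g₂x_i-g₃`
and `field_simp; linear_combination`.  [Check: the claim is `∂μ/∂z = -(μ²/2 - 4x₁ - 2x₂)`, equivalent to
`4(x₁²+x₁x₂+x₂²) - g₂ = μ (P₁+P₂)`.] -/
theorem add_y {z w : ℂ} (hz : z ∉ L.lattice) (hw : w ∉ L.lattice) (hne : ℘[L] z ≠ ℘[L] w) :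
    (℘[L] z - ℘[L] w) * ℘'[L] (z + w) =
      -((℘'[L] z - ℘'[L] w) * (℘[L] (z + w) - ℘[L] z) + ℘'[L] z * (℘[L] z - ℘[L] w)) := by
  have hzw : z + w ∉ L.lattice := add_notMem_of_ne L hne
  have hd : ℘[L] z - ℘[L] w ≠ 0 := sub_ne_zero.2 hne
  have hL : HasDerivAt (fun z' => ℘[L] (z' + w)) (℘'[L] (z + w)) z :=
    HasDerivAt.comp_add_const z w (hasDerivAt_wp L hzw)
  have h1 : HasDerivAt ℘[L] (℘'[L] z) z := hasDerivAt_wp L hz
  have h2 : HasDerivAt ℘'[L] (wpp L z) z := hasDerivAt_wp' L hz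
  have hμ : HasDerivAt (fun z' => (℘'[L] z' - ℘'[L] w) / (℘[L] z' - ℘[L] w))
      ((wpp L z * (℘[L] z - ℘[L] w) - (℘'[L] z - ℘'[L] w) * ℘'[L] z) / (℘[L] z - ℘[L] w) ^ 2) z :=
    (h2.sub_const (℘'[L] w)).fun_div (h1.sub_const (℘[L] w)) hd
  have hF : HasDerivAt
      (fun z' => ((℘'[L] z' - ℘'[L] w) / (℘[L] z' - ℘[L] w)) ^ 2 / 4 - ℘[L] z' - ℘[L] w)
      (((2 : ℕ) : ℂ) * ((℘'[L] z - ℘'[L] w) / (℘[L] z - ℘[L] w)) ^ (2 - 1) *
        ((wpp L z * (℘[L] z - ℘[L] w) - (℘'[L] z - ℘'[L] w) * ℘'[L] z) / (℘[L] z - ℘[L] w) ^ 2)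
          / 4 - ℘'[L] z) z :=
    (((hμ.fun_pow 2).div_const 4).fun_sub h1).sub_const (℘[L] w)
  have hev : (fun z' => ℘[L] (z' + w)) =ᶠ[𝓝 z]
      (fun z' => ((℘'[L] z' - ℘'[L] w) / (℘[L] z' - ℘[L] w)) ^ 2 / 4 - ℘[L] z' - ℘[L] w) := by
    have e1 : ∀ᶠ z' in 𝓝 z, z' ∉ L.lattice := L.isClosed_lattice.isOpen_compl.mem_nhds hz
    have e2 : ∀ᶠ z' in 𝓝 z, ℘[L] z' ≠ ℘[L] w :=
      (analyticAt_wp L hz).continuousAt.eventually_ne hne
    filter_upwards [e1, e2] with z' a1 a2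
    exact add_x L a1 hw a2
  have hP3 := hL.unique (hF.congr_of_eventuallyEq hev)
  have hx3 := add_x L hz hw hne
  have c1 := L.derivWeierstrassP_sq z hz
  have c2 := L.derivWeierstrassP_sq w hw
  rw [hP3, hx3]
  unfold wpp
  generalize ℘[L] z = x₁ at *
  generalize ℘[L] w = x₂ at *
  generalize ℘'[L] z = P₁ at *
  generalize ℘'[L] w = P₂ at *
  generalize L.g₂ = g₂ at *
  generalize L.g₃ = g₃ at *
  clear hμ hF hev hP3 hx3 h1 h2 hL hne
  obtain ⟨d, hdd⟩ : ∃ d, d = x₁ - x₂ := ⟨_, rfl⟩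
  rw [← hdd] at hd ⊢
  have hx1 : x₁ = x₂ + d := by rw [hdd]; ring
  subst hx1
  norm_num
  field_simp
  linear_combination (-(P₁ - P₂)) * c1 + (P₁ - P₂) * c2

/-- **(DUP)** PROOF.  For `w ≠ z` close to `z`: `add_poly` (`w ∉ Λ`, `z + w ∉ Λ` are open conditions, true at `w = z`).  Divide by
`(z - w)²`: `((℘'z - ℘'w)/(z - w))² = 4 (℘(z+w) + ℘z + ℘w) ((℘z - ℘w)/(z - w))²` and let `w → z`
(`hasDerivAt_iff_tendsto_slope` for `hasDerivAt_wp`, `hasDerivAt_wp'`; `slope`), `tendsto_nhds_unique`; `z + z = 2 * z`. -/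
theorem dup_poly {z : ℂ} (hz : z ∉ L.lattice) (h2z : 2 * z ∉ L.lattice) :
    wpp L z ^ 2 = 4 * (℘[L] (2 * z) + 2 * ℘[L] z) * ℘'[L] z ^ 2 := by
  have hzz : z + z ∉ L.lattice := by rwa [← two_mul]
  have h1 : Tendsto (slope ℘[L] z) (𝓝[≠] z) (𝓝 (℘'[L] z)) :=
    hasDerivAt_iff_tendsto_slope.1 (hasDerivAt_wp L hz)
  have h2 : Tendsto (slope ℘'[L] z) (𝓝[≠] z) (𝓝 (wpp L z)) :=
    hasDerivAt_iff_tendsto_slope.1 (hasDerivAt_wp' L hz)
  have h3 : Tendsto (fun w => ℘[L] w) (𝓝[≠] z) (𝓝 (℘[L] z)) :=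
    ((analyticAt_wp L hz).continuousAt.tendsto).mono_left nhdsWithin_le_nhds
  have hadd : ContinuousAt (fun w : ℂ => z + w) z := by fun_prop
  have h4 : Tendsto (fun w => ℘[L] (z + w)) (𝓝[≠] z) (𝓝 (℘[L] (z + z))) := by
    have hc : ContinuousAt (fun w => ℘[L] (z + w)) z :=
      ContinuousAt.comp (f := fun w => z + w) (g := ℘[L]) (analyticAt_wp L hzz).continuousAt hadd
    exact hc.tendsto.mono_left nhdsWithin_le_nhds
  have hopen : IsOpen (L.lattice : Set ℂ)ᶜ := L.isClosed_lattice.isOpen_compl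
  have e1 : ∀ᶠ w in 𝓝[≠] z, w ∉ L.lattice := eventually_notMem_lattice L z
  have e2 : ∀ᶠ w in 𝓝[≠] z, z + w ∉ L.lattice :=
    (hadd.eventually (hopen.mem_nhds hzz)).filter_mono nhdsWithin_le_nhds
  have e3 : ∀ᶠ w in 𝓝[≠] z, w ≠ z := eventually_mem_nhdsWithin
  have key : (fun w => slope ℘'[L] z w ^ 2) =ᶠ[𝓝[≠] z]
      fun w => 4 * (℘[L] (z + w) + ℘[L] z + ℘[L] w) * slope ℘[L] z w ^ 2 := by
    filter_upwards [e1, e2, e3] with w hw hzw hne
    have h5 := add_poly L hz hw hzw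
    have hne' : w - z ≠ 0 := sub_ne_zero.2 hne
    rw [slope_def_field, slope_def_field]
    field_simp
    linear_combination h5
  have l1 := h2.pow 2
  have l2 := (((h4.add (tendsto_const_nhds (x := ℘[L] z))).add h3).const_mul 4).mul (h1.pow 2)
  have h6 := tendsto_nhds_unique (l1.congr' key) l2
  rw [h6, two_mul]
  ring

/-- PROOF.  Same limit in `add_y` (for `w ≠ z` close to `z`, `℘ w ≠ ℘ z` by `eventually_wp_ne`), divided by `z - w`. -/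
theorem dup_y {z : ℂ} (hz : z ∉ L.lattice) (h2z : 2 * z ∉ L.lattice) :
    ℘'[L] z * ℘'[L] (2 * z) = -(wpp L z * (℘[L] (2 * z) - ℘[L] z) + ℘'[L] z ^ 2) := by
  have hzz : z + z ∉ L.lattice := by rwa [← two_mul]
  have s1 : Tendsto (slope ℘[L] z) (𝓝[≠] z) (𝓝 (℘'[L] z)) :=
    hasDerivAt_iff_tendsto_slope.1 (hasDerivAt_wp L hz)
  have s2 : Tendsto (slope ℘'[L] z) (𝓝[≠] z) (𝓝 (wpp L z)) :=
    hasDerivAt_iff_tendsto_slope.1 (hasDerivAt_wp' L hz)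
  have hadd : ContinuousAt (fun w : ℂ => z + w) z := by fun_prop
  have c1 : Tendsto (fun w => ℘[L] (z + w)) (𝓝[≠] z) (𝓝 (℘[L] (z + z))) :=
    (ContinuousAt.comp (f := fun w : ℂ => z + w) (analyticAt_wp L hzz).continuousAt
      hadd).tendsto.mono_left nhdsWithin_le_nhds
  have c2 : Tendsto (fun w => ℘'[L] (z + w)) (𝓝[≠] z) (𝓝 (℘'[L] (z + z))) :=
    (ContinuousAt.comp (f := fun w : ℂ => z + w) (analyticAt_wp' L hzz).continuousAt
      hadd).tendsto.mono_left nhdsWithin_le_nhds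
  have lhs : Tendsto (fun w => slope ℘[L] z w * ℘'[L] (z + w)) (𝓝[≠] z)
      (𝓝 (℘'[L] z * ℘'[L] (z + z))) := s1.mul c2
  have rhs : Tendsto
      (fun w => -(slope ℘'[L] z w * (℘[L] (z + w) - ℘[L] z) + ℘'[L] z * slope ℘[L] z w))
      (𝓝[≠] z) (𝓝 (-(wpp L z * (℘[L] (z + z) - ℘[L] z) + ℘'[L] z * ℘'[L] z))) :=
    ((s2.mul (c1.sub_const _)).add (s1.const_mul _)).neg
  have heq : (fun w => slope ℘[L] z w * ℘'[L] (z + w)) =ᶠ[𝓝[≠] z]
      fun w => -(slope ℘'[L] z w * (℘[L] (z + w) - ℘[L] z) + ℘'[L] z * slope ℘[L] z w) := by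
    filter_upwards [eventually_notMem_lattice L z, eventually_wp_ne L (℘[L] z) z,
      self_mem_nhdsWithin] with w hw hne hwz
    have h := add_y L hz hw (Ne.symm hne)
    have hwz' : w - z ≠ 0 := sub_ne_zero.2 hwz
    simp only [slope_def_field]
    field_simp
    linear_combination -h
  have := tendsto_nhds_unique_of_eventuallyEq lhs rhs heq
  rw [two_mul, this]
  ring

end Fermat.Agent.S15.M1a
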