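import Mathlib

/-!
# S15 / M1a (complex uniformisation, pure Mathlib) : basic facts on `℘`, `℘'`

`L : PeriodPair`, `Λ = L.lattice`.  Plan of the block (NO argument principle, NO sigma function):

* `Basic`   : `℘' ' = 6 ℘² - g₂/2`, identity theorem for meromorphic functions, `℘` is nowhere locally constant;
* `Euler`   : Euler's proof of the addition theorem: `t ↦ A(t, s - t)` has derivative `0` and tends to `℘ s` at `t = 0`;
* `Add`     : polynomial forms of the addition and duplication formulas (valid without any genericity hypothesis);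
* `NoDouble`: there is no `w ∉ Λ` with `℘' w = 0 = ℘'' w` (orders of vanishing in the differential equation);
* `Deg2`    : `℘ z = ℘ w ↔ z ≡ ± w`, `℘' z = 0 ↔ 2 z ∈ Λ`;
* `Surj`    : `℘` takes every value (Liouville);
* `Curve`, `Hom`, `Tors` : `phi : ℂ →+ E_L(ℂ)` surjective with kernel `Λ`, torsion points.
-/

set_option autoImplicit false

noncomputable section

namespace Fermat.Agent.S15.M1a

open Filter Topology PeriodPair

variable (L : PeriodPair)

/-- `℘''` as a polynomial in `℘`. -/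
def wpp (z : ℂ) : ℂ := 6 * ℘[L] z ^ 2 - L.g₂ / 2

/-- PROOF: `L.differentiableOn_weierstrassP` (or `analyticOnNhd_weierstrassP`) on the open set `Λᶜ`
(`L.isClosed_lattice`), `L.deriv_weierstrassP`. -/
theorem hasDerivAt_wp {z : ℂ} (hz : z ∉ L.lattice) : HasDerivAt ℘[L] (℘'[L] z) z := by
  have h := (L.analyticOnNhd_weierstrassP z hz).differentiableAt.hasDerivAt
  rwa [L.deriv_weierstrassP] at h

theorem analyticAt_wp {z : ℂ} (hz : z ∉ L.lattice) : AnalyticAt ℂ ℘[L] z :=
  L.analyticOnNhd_weierstrassP z hz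

theorem analyticAt_wp' {z : ℂ} (hz : z ∉ L.lattice) : AnalyticAt ℂ ℘'[L] z :=
  L.analyticOnNhd_derivWeierstrassP z hz

/-- **Identity theorem.**  PROOF: `MeromorphicOn.exists_meromorphicOrderAt_ne_top_iff_forall` on `Set.univ`
(`isConnected_univ`). -/
theorem order_eq_top_of_order_eq_top {f : ℂ → ℂ} (hf : Meromorphic f) {z₀ : ℂ}
    (h : meromorphicOrderAt f z₀ = ⊤) (z : ℂ) : meromorphicOrderAt f z = ⊤ := by
  by_contra hz
  exact (MeromorphicOn.meromorphicOrderAt_ne_top_of_isPreconnected (U := Set.univ)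
    (fun x _ => hf x) isPreconnected_univ (Set.mem_univ z) (Set.mem_univ z₀) hz) h

/-- PROOF: `meromorphicOrderAt_eq_top_iff`: `f = 0` on a punctured neighbourhood; `ContinuousAt` + `𝓝[≠] z ≠ ⊥`
(`tendsto_nhds_unique`). -/
theorem eq_zero_of_order_eq_top {f : ℂ → ℂ} {z : ℂ} (h : meromorphicOrderAt f z = ⊤)
    (hc : ContinuousAt f z) : f z = 0 := by
  rw [meromorphicOrderAt_eq_top_iff] at h
  have h1 : Tendsto f (𝓝[≠] z) (𝓝 (f z)) := hc.tendsto.mono_left nhdsWithin_le_nhds
  have h2 : Tendsto f (𝓝[≠] z) (𝓝 0) :=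
    (tendsto_const_nhds (x := (0 : ℂ))).congr' (h.mono fun x hx => hx.symm)
  exact tendsto_nhds_unique h1 h2

/-- PROOF: otherwise the order is `⊤` at `0` (`order_eq_top_of_order_eq_top`); but `℘ - c` has order `-2` at `0`
(`L.order_weierstrassP`, `meromorphicOrderAt_add_eq_left_of_lt` with the constant of order `≥ 0`). -/
theorem order_wp_sub_const_ne_top (c z : ℂ) : meromorphicOrderAt (fun z => ℘[L] z - c) z ≠ ⊤ := by
  classical
  intro htop
  have hmer : Meromorphic (fun z => ℘[L] z - c) := fun w =>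
    (L.meromorphic_weierstrassP w).sub (MeromorphicAt.const c w)
  have h0 := order_eq_top_of_order_eq_top hmer htop 0
  have hfun : (fun z => ℘[L] z - c) = ℘[L] + fun _ => -c := by
    funext w
    simp [sub_eq_add_neg]
  have hwp : meromorphicOrderAt ℘[L] 0 = -2 := L.order_weierstrassP 0 (zero_mem _)
  have hlt : meromorphicOrderAt ℘[L] 0 < meromorphicOrderAt (fun _ : ℂ => -c) 0 := by
    rw [hwp, meromorphicOrderAt_const]
    split_ifs
    · exact WithTop.coe_lt_top (-2 : ℤ)
    · decide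
  rw [hfun, meromorphicOrderAt_add_eq_left_of_lt (MeromorphicAt.const (-c) 0) hlt, hwp] at h0
  exact absurd h0 (WithTop.coe_ne_top (a := (-2 : ℤ)))

/-- `℘` takes the value `c` only at isolated points.  PROOF: `meromorphicOrderAt_ne_top_iff_eventually_ne_zero`. -/
theorem eventually_wp_ne (c z₀ : ℂ) : ∀ᶠ z in 𝓝[≠] z₀, ℘[L] z ≠ c := by
  have hmer : MeromorphicAt (fun z => ℘[L] z - c) z₀ :=
    (L.meromorphic_weierstrassP z₀).sub (MeromorphicAt.const c z₀)
  have h := (meromorphicOrderAt_ne_top_iff_eventually_ne_zero hmer).1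
    (order_wp_sub_const_ne_top L c z₀)
  filter_upwards [h] with z hz
  exact sub_ne_zero.1 hz

/-- PROOF: if the order of `℘'` were `⊤` at some point it would be `⊤` at `0`; but `℘' = deriv ℘` has order `-3` there
(`meromorphicOrderAt_deriv_eq_sub_one`, `L.order_weierstrassP`, `L.deriv_weierstrassP`). -/
theorem eventually_wp'_ne_zero (z₀ : ℂ) : ∀ᶠ z in 𝓝[≠] z₀, ℘'[L] z ≠ 0 := by
  rw [← meromorphicOrderAt_ne_top_iff_eventually_ne_zero (L.meromorphic_derivWeierstrassP z₀)]
  intro htop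
  have h0 := order_eq_top_of_order_eq_top L.meromorphic_derivWeierstrassP htop 0
  have h1 : meromorphicOrderAt ℘[L] 0 = ((-2 : ℤ) : WithTop ℤ) := by
    rw [L.order_weierstrassP 0 (zero_mem _)]
    rfl
  have h2 := meromorphicOrderAt_deriv_eq_sub_one (𝕜 := ℂ) (n := -2) (by norm_num) h1
  rw [L.deriv_weierstrassP, h0] at h2
  exact WithTop.top_ne_coe h2

/-- a punctured neighbourhood of any point avoids the lattice. PROOF: `L.compl_lattice_sdiff_singleton_mem_nhds`. -/
theorem eventually_notMem_lattice (z₀ : ℂ) : ∀ᶠ z in 𝓝[≠] z₀, z ∉ L.lattice := by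
  rw [eventually_nhdsWithin_iff]
  filter_upwards [L.compl_lattice_sdiff_singleton_mem_nhds z₀] with z hz hne hmem
  exact hz ⟨hmem, hne⟩

/-- **`℘'' = 6 ℘² - g₂ / 2`.**  PROOF.  `℘'` is analytic at `z`, so `HasDerivAt ℘' (deriv ℘' z) z`; it remains to show
`deriv ℘' z = wpp z`.  Both sides are continuous at `z` (as functions of `z`, on the open set `Λᶜ`;
`AnalyticAt.deriv`), so it is enough to prove it on a punctured neighbourhood, where `℘' ≠ 0`
(`eventually_wp'_ne_zero`): differentiate `L.derivWeierstrassP_sq` (an equality of functions near the point):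
`2 ℘' ℘'' = (12 ℘² - g₂) ℘'` and cancel `℘'`. -/
theorem hasDerivAt_wp' {z : ℂ} (hz : z ∉ L.lattice) : HasDerivAt ℘'[L] (wpp L z) z := by
  have hopen : IsOpen ((L.lattice : Set ℂ)ᶜ) := L.isClosed_lattice.isOpen_compl
  have key : ∀ w, w ∉ L.lattice → ℘'[L] w ≠ 0 → deriv ℘'[L] w = wpp L w := by
    intro w hw hw0
    have h1 := hasDerivAt_wp L hw
    have h2 : HasDerivAt ℘'[L] (deriv ℘'[L] w) w :=
      (analyticAt_wp' L hw).differentiableAt.hasDerivAt
    have h3 : HasDerivAt (fun u => ℘'[L] u ^ 2) (2 * ℘'[L] w * deriv ℘'[L] w) w := by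
      simpa using h2.fun_pow 2
    have h4 : HasDerivAt (fun u => 4 * ℘[L] u ^ 3 - L.g₂ * ℘[L] u - L.g₃)
        (4 * (3 * ℘[L] w ^ 2 * ℘'[L] w) - L.g₂ * ℘'[L] w) w := by
      have := (((h1.fun_pow 3).const_mul 4).sub (h1.const_mul L.g₂)).sub_const L.g₃
      simpa using this
    have h5 : (fun u => ℘'[L] u ^ 2) =ᶠ[𝓝 w]
        (fun u => 4 * ℘[L] u ^ 3 - L.g₂ * ℘[L] u - L.g₃) := by
      filter_upwards [hopen.mem_nhds hw] with u hu
      exact L.derivWeierstrassP_sq u hu
    have h6 := (h4.congr_of_eventuallyEq h5).unique h3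
    have h7 : ℘'[L] w * (2 * (deriv ℘'[L] w - wpp L w)) = 0 := by
      unfold wpp
      linear_combination -h6
    have h8 := (mul_eq_zero.1 h7).resolve_left hw0
    have h9 := (mul_eq_zero.1 h8).resolve_left two_ne_zero
    exact sub_eq_zero.1 h9
  have hc1 : ContinuousAt (deriv ℘'[L]) z := (analyticAt_wp' L hz).deriv.continuousAt
  have hc2 : ContinuousAt (wpp L) z := by
    have h0 := (analyticAt_wp L hz).continuousAt
    exact (continuousAt_const.mul (h0.pow 2)).sub continuousAt_const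
  have hev : ∀ᶠ w in 𝓝[≠] z, deriv ℘'[L] w = wpp L w := by
    filter_upwards [eventually_wp'_ne_zero L z, eventually_notMem_lattice L z] with w h1 h2
    exact key w h2 h1
  have heq : deriv ℘'[L] z = wpp L z := by
    have t1 : Tendsto (deriv ℘'[L]) (𝓝[≠] z) (𝓝 (deriv ℘'[L] z)) :=
      hc1.tendsto.mono_left nhdsWithin_le_nhds
    have t2 : Tendsto (wpp L) (𝓝[≠] z) (𝓝 (wpp L z)) :=
      hc2.tendsto.mono_left nhdsWithin_le_nhds
    exact tendsto_nhds_unique (t1.congr' hev) t2
  rw [← heq]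
  exact (analyticAt_wp' L hz).differentiableAt.hasDerivAt

theorem neg_notMem {z : ℂ} (hz : z ∉ L.lattice) : -z ∉ L.lattice := fun h => hz (by simpa using neg_mem h)

/-- periodicity in the convenient form. -/
theorem wp_congr {z w : ℂ} (h : z - w ∈ L.lattice) : ℘[L] z = ℘[L] w := by
  have := L.weierstrassP_add_coe w ⟨_, h⟩
  simpa using this

theorem wp'_congr {z w : ℂ} (h : z - w ∈ L.lattice) : ℘'[L] z = ℘'[L] w := by
  have := L.derivWeierstrassP_add_coe w ⟨_, h⟩
  simpa using this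

end Fermat.Agent.S15.M1a
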