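import Fermat.Agent.S15.M1a.Basic

/-!
# S15 / M1a : `℘` is surjective
-/

set_option autoImplicit false

noncomputable section

namespace Fermat.Agent.S15.M1a

open Filter Topology PeriodPair

variable (L : PeriodPair)

/-- **(SUR)**  PROOF (Liouville, same pattern as Mathlib's private `PeriodPair.relation_eq_zero`).  Suppose `℘ z ≠ c` for all `z ∉ Λ`.
`f z := if z ∈ Λ then 0 else (℘ z - c)⁻¹`.  `f` is `Λ`-periodic.  It is analytic at every `z ∉ Λ` (`AnalyticAt.inv`, congruence on the
open set `Λᶜ`).  At `0`: for `z` close to `0`, `f z = z² / (1 + z² (℘[L - 0] z - c))` (for `z ≠ 0` by `L.weierstrassPExcept_add 0 z`,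
`field_simp`; for `z = 0` both sides are `0`), which is analytic at `0`; at the other lattice points by periodicity (translate).
So `f` is differentiable, bounded (`IsZLattice.isCompact_range_of_periodic L.lattice f`), hence constant
(`Differentiable.apply_eq_apply_of_bounded`), equal to `f 0 = 0`; but `f (ω₁/2) ≠ 0` (`L.ω₁_div_two_notMem_lattice`). -/
theorem wp_surjective (c : ℂ) : ∃ z, z ∉ L.lattice ∧ ℘[L] z = c := by
  classical
  by_contra hcon
  push Not at hcon
  set f : ℂ → ℂ := fun z => if z ∈ L.lattice then 0 else (℘[L] z - c)⁻¹ with hf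
  have hper : ∀ (z : ℂ) (l : L.lattice), f (z + l) = f z := by
    intro z l
    simp only [hf, weierstrassP_add_coe]
    congr 1
    simpa using (L.lattice.toAddSubgroup.add_mem_cancel_right (y := z) l.2)
  have han0 : AnalyticAt ℂ f 0 := by
    have h1 : AnalyticAt ℂ (fun z : ℂ => z ^ 2 / (1 + z ^ 2 * (℘[L - (0:ℂ)] z - c))) 0 := by
      apply AnalyticAt.div
      · fun_prop
      · have := L.analyticAt_weierstrassPExcept 0
        fun_prop
      · simp
    refine h1.congr ?_
    filter_upwards [L.compl_lattice_sdiff_singleton_mem_nhds 0] with z hz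
    by_cases hz0 : z = 0
    · simp [hz0, hf]
    have hzL : z ∉ L.lattice := by simp_all
    have h2 := L.weierstrassPExcept_def 0 z
    have h3 := sub_ne_zero.2 (hcon z hzL)
    simp only [hf, if_neg hzL]
    rw [← ZeroMemClass.coe_zero L.lattice, h2]
    simp only [ZeroMemClass.coe_zero, sub_zero]
    have h4 : 1 + z ^ 2 * (℘[L] z + (1 / (0:ℂ) ^ 2 - 1 / z ^ 2) - c) = z ^ 2 * (℘[L] z - c) := by
      field_simp
      simp
      ring
    rw [h4]
    field_simp
  have han : ∀ x, AnalyticAt ℂ f x := by
    intro x
    by_cases hx : x ∈ L.lattice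
    · lift x to L.lattice using hx
      have := han0
      rw [← sub_self x.1] at this
      convert! this.comp (f := (· - x.1)) (by fun_prop)
      ext a
      have := hper (a - x.1) x
      simp only [sub_add_cancel] at this
      simp [this]
    · have h1 : AnalyticAt ℂ (fun z => (℘[L] z - c)⁻¹) x := by
        have := L.analyticOnNhd_weierstrassP _ hx
        exact (this.sub analyticAt_const).inv (sub_ne_zero.2 (hcon x hx))
      apply h1.congr
      filter_upwards [L.isClosed_lattice.isOpen_compl.mem_nhds hx] with y hy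
      simp_all
  have hdiff : Differentiable ℂ f := fun x => (han x).differentiableAt
  have hconst := hdiff.apply_eq_apply_of_bounded (IsZLattice.isCompact_range_of_periodic L.lattice _
    hdiff.continuous fun z w hw => by lift w to L.lattice using hw; exact hper z w).isBounded
    (L.ω₁ / 2) 0
  have h0 : f 0 = 0 := if_pos (zero_mem _)
  have h1 : f (L.ω₁ / 2) = (℘[L] (L.ω₁ / 2) - c)⁻¹ := if_neg L.ω₁_div_two_notMem_lattice
  rw [h0, h1, inv_eq_zero] at hconst
  exact hcon _ L.ω₁_div_two_notMem_lattice (sub_eq_zero.1 hconst)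

end Fermat.Agent.S15.M1a
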