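import Fermat.Agent.S15.M1a.Deg2
import Fermat.Agent.S15.M1a.Surj

/-!
# S15 / M1a : the Weierstrass curve `E_L : y² = x³ - (g₂/4) x - g₃/4` and the map `phi : ℂ → E_L(ℂ)`
-/

set_option autoImplicit false

noncomputable section

namespace Fermat.Agent.S15.M1a

open Filter Topology PeriodPair WeierstrassCurve

variable (L : PeriodPair)

/-- `E_L : y² = x³ - (g₂/4) x - g₃/4`  (`x = ℘`, `y = ℘'/2`). -/
def WL : WeierstrassCurve ℂ := ⟨0, 0, 0, -L.g₂ / 4, -L.g₃ / 4⟩

@[simp] theorem WL_a₁ : (WL L).a₁ = 0 := rfl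
@[simp] theorem WL_a₂ : (WL L).a₂ = 0 := rfl
@[simp] theorem WL_a₃ : (WL L).a₃ = 0 := rfl
@[simp] theorem WL_a₄ : (WL L).a₄ = -L.g₂ / 4 := rfl
@[simp] theorem WL_a₆ : (WL L).a₆ = -L.g₃ / 4 := rfl

/-- PROOF: `Affine.equation_iff`, `L.derivWeierstrassP_sq`, `simp`, `linear_combination`. -/
theorem equation_wp {z : ℂ} (hz : z ∉ L.lattice) :
    (WL L).toAffine.Equation (℘[L] z) (℘'[L] z / 2) := by
  rw [Affine.equation_iff]
  have h := L.derivWeierstrassP_sq z hz
  simp only [WL_a₁, WL_a₂, WL_a₃, WL_a₄, WL_a₆]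
  linear_combination (1 / 4 : ℂ) * h

/-- PROOF: `Affine.nonsingular_iff`, `equation_wp`; if both partial derivatives vanish then `℘' z = 0` and
`3 ℘² - g₂/4 = 0`, i.e. `wpp L z = 0`: `no_double`. -/
theorem nonsingular_wp {z : ℂ} (hz : z ∉ L.lattice) :
    (WL L).toAffine.Nonsingular (℘[L] z) (℘'[L] z / 2) := by
  rw [Affine.nonsingular_iff']
  refine ⟨equation_wp L hz, ?_⟩
  simp only [WL_a₁, WL_a₂, WL_a₃, WL_a₄]
  by_contra hcon
  rw [not_or, not_not, not_not] at hcon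
  obtain ⟨h1, h2⟩ := hcon
  refine no_double L hz ?_ ?_
  · linear_combination h2
  · rw [wpp]
    linear_combination (-2 : ℂ) * h1

open Classical in
/-- the uniformisation map. -/
def phi (z : ℂ) : (WL L).toAffine.Point :=
  if h : z ∈ L.lattice then 0 else .some (℘[L] z) (℘'[L] z / 2) (nonsingular_wp L h)

theorem phi_of_mem {z : ℂ} (h : z ∈ L.lattice) : phi L z = 0 := by simp [phi, h]

theorem phi_of_notMem {z : ℂ} (h : z ∉ L.lattice) :
    phi L z = .some (℘[L] z) (℘'[L] z / 2) (nonsingular_wp L h) := by simp [phi, h]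

theorem phi_eq_zero_iff {z : ℂ} : phi L z = 0 ↔ z ∈ L.lattice := by
  constructor
  · intro h
    by_contra hz
    rw [phi_of_notMem L hz] at h
    exact Affine.Point.some_ne_zero _ h
  · exact phi_of_mem L

/-- PROOF: cases `z ∈ Λ` (then `w ∈ Λ`) or not; `wp_congr`, `wp'_congr`; `phi_of_notMem`, `congr`/`simp only`. -/
theorem phi_congr {z w : ℂ} (h : z - w ∈ L.lattice) : phi L z = phi L w := by
  by_cases hz : z ∈ L.lattice
  · have hw : w ∈ L.lattice := by
      have e : w = z - (z - w) := by ring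
      rw [e]
      exact sub_mem hz h
    rw [phi_of_mem L hz, phi_of_mem L hw]
  · have hw : w ∉ L.lattice := by
      intro hw
      apply hz
      have e : z = (z - w) + w := by ring
      rw [e]
      exact add_mem h hw
    rw [phi_of_notMem L hz, phi_of_notMem L hw]
    simp only [wp_congr L h, wp'_congr L h]

/-- PROOF: `Affine.Point.neg_some`, `Affine.negY`, `L.weierstrassP_neg`, `L.derivWeierstrassP_neg`. -/
theorem phi_neg (z : ℂ) : phi L (-z) = -phi L z := by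
  by_cases hz : z ∈ L.lattice
  · rw [phi_of_mem L hz, phi_of_mem L (neg_mem hz), neg_zero]
  · rw [phi_of_notMem L hz, phi_of_notMem L (neg_notMem L hz), Affine.Point.neg_some]
    simp only [Affine.negY, WL_a₁, WL_a₃, L.weierstrassP_neg, L.derivWeierstrassP_neg,
      Affine.Point.some.injEq, true_and]
    ring

/-- PROOF: `P = 0`: `z = 0`.  `P = some x y h`: `wp_surjective L x` gives `z`; `(℘'z/2)² = y²` by the two equations
(`equation_wp`, `h.1`), so `y = ℘'z/2` or `y = -℘'z/2 = ℘'(-z)/2`. -/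
theorem phi_surjective : Function.Surjective (phi L) := by
  intro P
  rcases P with _ | ⟨x, y, h⟩
  · exact ⟨0, phi_of_mem L (zero_mem _)⟩
  · obtain ⟨z, hz, rfl⟩ := wp_surjective L x
    have e1 := (Affine.equation_iff _ _).1 (equation_wp L hz)
    have e2 := (Affine.equation_iff _ _).1 h.1
    have hsq : (y - ℘'[L] z / 2) * (y + ℘'[L] z / 2) = 0 := by
      simp only [WL_a₁, WL_a₂, WL_a₃, WL_a₄, WL_a₆] at e1 e2
      linear_combination e2 - e1
    rcases mul_eq_zero.1 hsq with h0 | h0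
    · refine ⟨z, ?_⟩
      rw [phi_of_notMem L hz]
      have hy : y = ℘'[L] z / 2 := sub_eq_zero.1 h0
      subst hy
      rfl
    · refine ⟨-z, ?_⟩
      rw [phi_of_notMem L (neg_notMem L hz)]
      have hy : y = ℘'[L] (-z) / 2 := by
        rw [L.derivWeierstrassP_neg]
        linear_combination h0
      have hx : ℘[L] z = ℘[L] (-z) := (L.weierstrassP_neg z).symm
      subst hy
      simp only [hx]

/-- **`Δ(E_L) ≠ 0`.**  PROOF.  `Δ = -16(4a₄³ + 27a₆²) = g₂³ - 27g₃²` (`simp [WeierstrassCurve.Δ, b₂, b₄, b₆, b₈]; ring`).  If it vanishes, the cubic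
`4x³ - g₂x - g₃` has a double root `e`: if `g₂ = 0` then `g₃ = 0`, `e = 0`; otherwise `e = -3g₃/(2g₂)`
(check: `12e² = g₂` and `4e³ - g₂e - g₃ = 0` follow from `g₂³ = 27g₃²`).  `wp_surjective L e` gives `w ∉ Λ` with `℘ w = e`; then
`℘'w² = 0` and `wpp L w = 0`: `no_double`. -/
theorem WL_Δ_ne_zero : (WL L).Δ ≠ 0 := by
  have hΔ : (WL L).Δ = L.g₂ ^ 3 - 27 * L.g₃ ^ 2 := by
    simp [WeierstrassCurve.Δ, WeierstrassCurve.b₂, WeierstrassCurve.b₄, WeierstrassCurve.b₆,
      WeierstrassCurve.b₈]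
    ring
  rw [hΔ]
  intro h0
  obtain ⟨e, he1, he2⟩ : ∃ e : ℂ, 12 * e ^ 2 = L.g₂ ∧ 4 * e ^ 3 - L.g₂ * e - L.g₃ = 0 := by
    by_cases hg : L.g₂ = 0
    · have hg3 : L.g₃ = 0 := by
        rw [hg] at h0
        have : L.g₃ ^ 2 = 0 := by linear_combination (-1 / 27 : ℂ) * h0
        exact pow_eq_zero_iff (two_ne_zero) |>.1 this
      exact ⟨0, by rw [hg]; ring, by rw [hg, hg3]; ring⟩
    · refine ⟨-3 * L.g₃ / (2 * L.g₂), ?_, ?_⟩
      · field_simp
        linear_combination (-4 : ℂ) * h0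
      · field_simp
        linear_combination (4 * L.g₃ : ℂ) * h0
  obtain ⟨w, hw, hwe⟩ := wp_surjective L e
  have h1 : ℘'[L] w = 0 := by
    have h := L.derivWeierstrassP_sq w hw
    rw [hwe, he2] at h
    exact pow_eq_zero_iff (two_ne_zero) |>.1 h
  have h2 : wpp L w = 0 := by
    unfold wpp
    rw [hwe, ← he1]
    ring
  exact no_double L hw h1 h2

theorem WL_Δ : (WL L).Δ = L.g₂ ^ 3 - 27 * L.g₃ ^ 2 := by
  simp [WeierstrassCurve.Δ, WeierstrassCurve.b₂, WeierstrassCurve.b₄, WeierstrassCurve.b₆,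
    WeierstrassCurve.b₈]
  ring

theorem WL_c₄ : (WL L).c₄ = 12 * L.g₂ := by
  simp [WeierstrassCurve.c₄, WeierstrassCurve.b₂, WeierstrassCurve.b₄]
  ring

theorem WL_c₆ : (WL L).c₆ = 216 * L.g₃ := by
  simp [WeierstrassCurve.c₆, WeierstrassCurve.b₂, WeierstrassCurve.b₄, WeierstrassCurve.b₆]
  ring

end Fermat.Agent.S15.M1a
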