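import Fermat.Agent.S15.M1a.Basic

/-!
# S15 / M1a : Euler's proof of the addition theorem (generic case)
-/

set_option autoImplicit false

noncomputable section

namespace Fermat.Agent.S15.M1a

open Filter Topology PeriodPair

variable (L : PeriodPair)

/-- Euler's function `t ↦ A(t, s - t)`, `A(a,b) = ((℘'a - ℘'b)/(℘a - ℘b))²/4 - ℘a - ℘b`. -/
def eul (s t : ℂ) : ℂ :=
  ((℘'[L] t - ℘'[L] (s - t)) / (℘[L] t - ℘[L] (s - t))) ^ 2 / 4 - ℘[L] t - ℘[L] (s - t)

/-- **(E1)** the derivative vanishes.  PROOF.  `x₁ = ℘ t, P₁ = ℘' t, x₂ = ℘ (s-t), P₂ = ℘' (s-t)`;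
`d/dt x₁ = P₁`, `d/dt x₂ = -P₂`, `d/dt P₁ = 6x₁²-g₂/2`, `d/dt P₂ = -(6x₂²-g₂/2)` (`hasDerivAt_wp`, `hasDerivAt_wp'`,
`HasDerivAt.comp` / `HasDerivAt.scomp` with `s - t`: `(hasDerivAt_id t).const_sub s`).
`μ = (P₁-P₂)/(x₁-x₂)` has derivative `((Q₁+Q₂)(x₁-x₂) - (P₁-P₂)(P₁+P₂))/(x₁-x₂)²` (`HasDerivAt.div`) which equals
`2 (x₁-x₂)` by `P_i² = 4x_i³ - g₂x_i - g₃` (`L.derivWeierstrassP_sq`).  So `d/dt (μ²/4 - x₁ - x₂) = μ(x₁-x₂) - (P₁-P₂) = 0`.
(Use `HasDerivAt.congr_deriv`/`convert ... using 1` and `field_simp`, `linear_combination` with the two cubic relations.) -/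
theorem hasDerivAt_eul {s t : ℂ} (ht : t ∉ L.lattice) (hst : s - t ∉ L.lattice)
    (hne : ℘[L] t ≠ ℘[L] (s - t)) : HasDerivAt (eul L s) 0 t := by
  have h1 : HasDerivAt ℘[L] (℘'[L] t) t := hasDerivAt_wp L ht
  have h2 : HasDerivAt (fun t => ℘[L] (s - t)) (-(℘'[L] (s - t))) t :=
    HasDerivAt.comp_const_sub s t (hasDerivAt_wp L hst)
  have h3 : HasDerivAt ℘'[L] (wpp L t) t := hasDerivAt_wp' L ht
  have h4 : HasDerivAt (fun t => ℘'[L] (s - t)) (-(wpp L (s - t))) t :=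
    HasDerivAt.comp_const_sub s t (hasDerivAt_wp' L hst)
  have hD : ℘[L] t - ℘[L] (s - t) ≠ 0 := sub_ne_zero.2 hne
  have hμ := (h3.sub h4).div (h1.sub h2) hD
  have e1 := L.derivWeierstrassP_sq t ht
  have e2 := L.derivWeierstrassP_sq (s - t) hst
  have hμ' : ((wpp L t - -wpp L (s - t)) * (℘[L] t - ℘[L] (s - t)) -
      (℘'[L] t - ℘'[L] (s - t)) * (℘'[L] t - -℘'[L] (s - t))) / (℘[L] t - ℘[L] (s - t)) ^ 2 =
      2 * (℘[L] t - ℘[L] (s - t)) := by
    rw [div_eq_iff (pow_ne_zero 2 hD), wpp, wpp]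
    linear_combination -e1 + e2
  have hfin := (((hμ.pow 2).div_const 4).sub h1).sub h2
  refine hfin.congr_deriv ?_
  simp only [Pi.sub_apply, Pi.div_apply] at hμ' ⊢
  rw [hμ']
  have h5 : (℘'[L] t - ℘'[L] (s - t)) / (℘[L] t - ℘[L] (s - t)) * (℘[L] t - ℘[L] (s - t)) =
      ℘'[L] t - ℘'[L] (s - t) := div_mul_cancel₀ _ hD
  simp only [Nat.cast_ofNat, Nat.reduceSub, pow_one]
  linear_combination h5

/-- PROOF: `L.meromorphic_weierstrassP`, `L.meromorphic_derivWeierstrassP`, composition with `t ↦ s - t`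
(`MeromorphicAt.comp_analyticAt` / `fun_prop`), arithmetic. -/
theorem meromorphic_eul (s : ℂ) : Meromorphic (eul L s) := by
  have h1 : Meromorphic (fun t => ℘[L] (s - t)) := fun t =>
    (L.meromorphic_weierstrassP (s - t)).comp_analyticAt (g := fun t => s - t) (by fun_prop)
  have h2 : Meromorphic (fun t => ℘'[L] (s - t)) := fun t =>
    (L.meromorphic_derivWeierstrassP (s - t)).comp_analyticAt (g := fun t => s - t) (by fun_prop)
  unfold eul
  fun_prop

/-- the analytic continuation of `eul L s` at `t = 0`.  `p = ℘ - t⁻²`, `p' = ℘' + 2 t⁻³`. -/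
def eulReg (s t : ℂ) : ℂ :=
  (-t * (℘'[L - (0 : ℂ)] t - ℘'[L] (s - t)) + t ^ 4 * (℘'[L - (0 : ℂ)] t - ℘'[L] (s - t)) ^ 2 / 4
      - 2 * (℘[L - (0 : ℂ)] t - ℘[L] (s - t)) - t ^ 2 * (℘[L - (0 : ℂ)] t - ℘[L] (s - t)) ^ 2)
    / (1 + t ^ 2 * (℘[L - (0 : ℂ)] t - ℘[L] (s - t))) ^ 2
  - ℘[L - (0 : ℂ)] t - ℘[L] (s - t)

/-- **(E2)**  PROOF.  For `t ≠ 0`: `℘ t = p + 1/t²`, `℘' t = p' - 2/t³` (`L.weierstrassPExcept_add 0 t`,
`L.derivWeierstrassPExcept_sub 0 t` with `((0 : L.lattice) : ℂ) = 0`, `simp`).  With `c = p' - b`, `d = p - a`: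
`(℘'t - b)/(℘t - a) = t⁻¹ (-2 + t³c)/(1 + t²d)`.  For `t` close to `0`, `1 + t² d ≠ 0` (it is continuous at `0` with value
`1`; `d` is continuous at `0` since `s ∉ Λ`).  Then `field_simp; ring`. -/
theorem eul_eventuallyEq_eulReg {s : ℂ} (hs : s ∉ L.lattice) : eul L s =ᶠ[𝓝[≠] 0] eulReg L s := by
  have hc1 : ContinuousAt (fun t : ℂ => ℘[L - (0 : ℂ)] t) 0 :=
    (L.analyticAt_weierstrassPExcept 0).continuousAt
  have hc2 : ContinuousAt (fun t : ℂ => ℘[L] (s - t)) 0 := by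
    have h1 : ContinuousAt ℘[L] (s - 0) := by
      rw [sub_zero]; exact (analyticAt_wp L hs).continuousAt
    exact ContinuousAt.comp (f := fun t : ℂ => s - t) h1 (by fun_prop)
  have hc : ContinuousAt (fun t : ℂ => 1 + t ^ 2 * (℘[L - (0 : ℂ)] t - ℘[L] (s - t))) 0 :=
    continuousAt_const.add ((continuousAt_id.pow 2).mul (hc1.sub hc2))
  have hne : ∀ᶠ t in 𝓝 (0 : ℂ), 1 + t ^ 2 * (℘[L - (0 : ℂ)] t - ℘[L] (s - t)) ≠ 0 := by
    apply hc.eventually_ne
    simp
  rw [Filter.EventuallyEq, eventually_nhdsWithin_iff]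
  filter_upwards [hne] with t ht ht0
  have ht0' : t ≠ 0 := ht0
  have e1 : ℘[L] t = ℘[L - (0 : ℂ)] t + 1 / t ^ 2 := by
    have := L.weierstrassPExcept_add 0 t
    simpa using this.symm
  have e2 : ℘'[L] t = ℘'[L - (0 : ℂ)] t - 2 / t ^ 3 := by
    have := L.derivWeierstrassPExcept_sub 0 t
    simpa using this.symm
  unfold eul eulReg
  rw [e1, e2]
  generalize ℘[L - (0 : ℂ)] t = p at *
  generalize ℘'[L - (0 : ℂ)] t = p' at *
  generalize ℘[L] (s - t) = a at *
  generalize ℘'[L] (s - t) = b at *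
  have e3 : p + 1 / t ^ 2 - a = (1 + t ^ 2 * (p - a)) / t ^ 2 := by
    field_simp
    ring
  have e4 : p' - 2 / t ^ 3 - b = (-2 + t ^ 3 * (p' - b)) / t ^ 3 := by
    field_simp
    ring
  rw [e3, e4]
  generalize hD : 1 + t ^ 2 * (p - a) = D at *
  have hd : t ^ 2 * (p - a) = D - 1 := by rw [← hD]; ring
  have hd2 : p - a = (D - 1) / t ^ 2 := by
    rw [← hd]; field_simp
  rw [hd2]
  field_simp
  ring

/-- **(E3)** PROOF: `L.analyticAt_weierstrassPExcept 0`, `L.analyticAt_derivWeierstrassPExcept 0`, `analyticAt_wp`,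
`analyticAt_wp'` composed with `t ↦ s - t` (at `t = 0` the value is `s ∉ Λ`); the denominator is `1` at `t = 0`
(`AnalyticAt.div`, `fun_prop`). -/
theorem analyticAt_eulReg {s : ℂ} (hs : s ∉ L.lattice) : AnalyticAt ℂ (eulReg L s) 0 := by
  have h1 : AnalyticAt ℂ ℘[L - (0 : ℂ)] 0 := L.analyticAt_weierstrassPExcept 0
  have h2 : AnalyticAt ℂ ℘'[L - (0 : ℂ)] 0 := L.analyticAt_derivWeierstrassPExcept 0
  have h3 : AnalyticAt ℂ (fun t => ℘[L] (s - t)) 0 := by
    have h : AnalyticAt ℂ ℘[L] (s - 0) := by rw [sub_zero]; exact analyticAt_wp L hs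
    exact AnalyticAt.fun_comp (g := ℘[L]) (f := fun t => s - t) h (by fun_prop)
  have h4 : AnalyticAt ℂ (fun t => ℘'[L] (s - t)) 0 := by
    have h : AnalyticAt ℂ ℘'[L] (s - 0) := by rw [sub_zero]; exact analyticAt_wp' L hs
    exact AnalyticAt.fun_comp (g := ℘'[L]) (f := fun t => s - t) h (by fun_prop)
  unfold eulReg
  refine AnalyticAt.sub (AnalyticAt.sub (AnalyticAt.div ?_ ?_ ?_) h1) h3
  · fun_prop
  · fun_prop
  · simp

/-- **(E4)** PROOF: `simp [eulReg]`; `℘[L - 0] 0 = 0` (from `L.weierstrassPExcept_add 0 0` and `L.weierstrassP_zero`, or from the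
definition: every summand vanishes); `ring`. -/
theorem eulReg_zero (s : ℂ) : eulReg L s 0 = ℘[L] s := by
  simp [eulReg]
  ring

/-- **(E5)** `eul L s = ℘ s` near `t = 0`.  PROOF.  On a punctured neighbourhood of `0`: `t ∉ Λ`, `s - t ∉ Λ`
(`Λᶜ` is open and contains `s`), `℘ t ≠ ℘ (s - t)` (`℘ t → ∞`: `tendsto_cobounded_of_meromorphicOrderAt_neg` and
`L.order_weierstrassP`, whereas `℘ (s - t)` is bounded near `0`; or: by (E2)'s computation `℘t - a = (1 + t²d)/t² ≠ 0`).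
There `eulReg L s` coincides with `eul L s` on a neighbourhood of `t`, so `deriv (eulReg L s) t = 0` by (E1).
`deriv (eulReg L s)` is analytic at `0` and vanishes on a punctured neighbourhood, so it vanishes on a ball `B(0,ε)` on which
`eulReg L s` is differentiable; hence `eulReg L s` is constant on the ball (`IsOpen.is_const_of_deriv_eq_zero` or
`Convex.is_const_of_fderivWithin_eq_zero`) equal to its value at `0`, (E4). -/
theorem eul_eventually_eq {s : ℂ} (hs : s ∉ L.lattice) : ∀ᶠ t in 𝓝[≠] 0, eul L s t = ℘[L] s := by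
  have hg : AnalyticAt ℂ (eulReg L s) 0 := analyticAt_eulReg L hs
  have hE : ∀ᶠ t in 𝓝[≠] 0, eul L s t = eulReg L s t := eul_eventuallyEq_eulReg L hs
  -- genericity on a punctured neighbourhood
  have hcont : ContinuousAt (fun t : ℂ => s - t) 0 := by fun_prop
  have h1 : ∀ᶠ t in 𝓝[≠] (0 : ℂ), t ∉ L.lattice := eventually_notMem_lattice L 0
  have h2 : ∀ᶠ t in 𝓝[≠] (0 : ℂ), s - t ∉ L.lattice := by
    apply eventually_nhdsWithin_of_eventually_nhds
    exact hcont.eventually (L.isClosed_lattice.isOpen_compl.mem_nhds (by simpa using hs))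
  have h3 : ∀ᶠ t in 𝓝[≠] (0 : ℂ), ℘[L] t ≠ ℘[L] (s - t) := by
    have ha : Tendsto (fun t => ‖℘[L] t‖) (𝓝[≠] 0) atTop := by
      rw [tendsto_norm_atTop_iff_cobounded]
      apply tendsto_cobounded_of_meromorphicOrderAt_neg
      rw [L.order_weierstrassP 0 (zero_mem _)]
      decide
    have hb : ContinuousAt (fun t : ℂ => ‖℘[L] (s - t)‖) 0 := by
      have h4 : ContinuousAt ℘[L] (s - 0) := by
        rw [sub_zero]; exact (analyticAt_wp L hs).continuousAt
      exact (ContinuousAt.comp (f := fun t : ℂ => s - t) h4 hcont).norm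
    have hb' : ∀ᶠ t in 𝓝[≠] (0 : ℂ), ‖℘[L] (s - t)‖ < ‖℘[L] (s - 0)‖ + 1 :=
      eventually_nhdsWithin_of_eventually_nhds (hb.eventually_lt_const (by simp))
    filter_upwards [ha.eventually_ge_atTop (‖℘[L] (s - 0)‖ + 1), hb'] with t ht1 ht2 heq
    rw [heq] at ht1
    exact absurd ht2 (not_lt.2 ht1)
  -- the derivative of the regularisation vanishes
  have h5 : ∀ᶠ t in 𝓝[≠] (0 : ℂ), ∀ᶠ x in 𝓝 t, eul L s x = eulReg L s x := by
    filter_upwards [eventually_eventually_nhdsWithin.2 hE, self_mem_nhdsWithin] with t ht ht0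
    rwa [IsOpen.nhdsWithin_eq isOpen_compl_singleton ht0] at ht
  have h6 : ∀ᶠ t in 𝓝[≠] (0 : ℂ), deriv (eulReg L s) t = 0 := by
    filter_upwards [h1, h2, h3, h5] with t a1 a2 a3 a5
    have h7 : eulReg L s =ᶠ[𝓝 t] eul L s := a5.mono fun x hx => hx.symm
    exact ((hasDerivAt_eul L a1 a2 a3).congr_of_eventuallyEq h7).deriv
  have h8 : ∀ᶠ t in 𝓝 (0 : ℂ), deriv (eulReg L s) t = 0 :=
    hg.deriv.frequently_zero_iff_eventually_zero.1 h6.frequently
  -- constancy on a ball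
  obtain ⟨ε, hε, hball⟩ := Metric.eventually_nhds_iff_ball.1 (h8.and hg.eventually_analyticAt)
  have h9 : ∀ t ∈ Metric.ball (0 : ℂ) ε, eulReg L s t = ℘[L] s := by
    intro t ht
    rw [← eulReg_zero L s]
    exact Metric.isOpen_ball.is_const_of_deriv_eq_zero (convex_ball (0 : ℂ) ε).isPreconnected
      (fun x hx => (hball x hx).2.differentiableAt.differentiableWithinAt)
      (fun x hx => (hball x hx).1) ht (Metric.mem_ball_self hε)
  filter_upwards [hE, eventually_nhdsWithin_of_eventually_nhds (Metric.ball_mem_nhds (0 : ℂ) hε)]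
    with t ht1 ht2
  rw [ht1, h9 t ht2]

/-- **The addition theorem, generic case.**  PROOF.  `s ∉ Λ` (otherwise `℘ (s - t) = ℘ (-t) = ℘ t`: `wp_congr`,
`L.weierstrassP_neg`).  `h := fun t => eul L s t - ℘ s` is meromorphic, of order `⊤` at `0` by (E5)
(`meromorphicOrderAt_eq_top_iff`), hence at `t` (`order_eq_top_of_order_eq_top`); it is continuous at `t` ((E1) gives
differentiability): `eq_zero_of_order_eq_top`. -/
theorem eul_eq {s t : ℂ} (ht : t ∉ L.lattice) (hst : s - t ∉ L.lattice)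
    (hne : ℘[L] t ≠ ℘[L] (s - t)) : eul L s t = ℘[L] s := by
  have hs : s ∉ L.lattice := by
    intro hs
    apply hne
    rw [← L.weierstrassP_neg t]
    refine wp_congr L ?_
    have e : -t - (s - t) = -s := by ring
    rw [e]
    exact neg_mem hs
  have hmer : Meromorphic (fun t => eul L s t - ℘[L] s) :=
    fun x => (meromorphic_eul L s x).sub (MeromorphicAt.const _ x)
  have h0 : meromorphicOrderAt (fun t => eul L s t - ℘[L] s) 0 = ⊤ := by
    rw [meromorphicOrderAt_eq_top_iff]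
    filter_upwards [eul_eventually_eq L hs] with t ht
    rw [ht, sub_self]
  have h1 := order_eq_top_of_order_eq_top hmer h0 t
  have hc : ContinuousAt (fun t => eul L s t - ℘[L] s) t :=
    ((hasDerivAt_eul L ht hst hne).continuousAt).sub continuousAt_const
  have h2 := eq_zero_of_order_eq_top (f := fun t => eul L s t - ℘[L] s) (z := t) h1 hc
  exact sub_eq_zero.1 h2

end Fermat.Agent.S15.M1a
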