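import Fermat.Agent.S15.M1a.Curve

/-!
# S15 / M1a : `phi` is a group homomorphism
-/

set_option autoImplicit false

noncomputable section

namespace Fermat.Agent.S15.M1a

open Filter Topology PeriodPair WeierstrassCurve

variable (L : PeriodPair)

/-- **(H1)** generic case.  PROOF.  `z + w ∉ Λ` (`add_notMem_of_ne`); `phi_of_notMem` three times; `Affine.Point.add_of_X_ne hne`;
`Affine.slope_of_X_ne`: slope `= (℘'z/2 - ℘'w/2)/(℘z - ℘w)`; `Affine.addX`, `Affine.addY`, `Affine.negAddY`, `Affine.negY` unfolded with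
`a₁ = a₂ = a₃ = 0`; the `x`-coordinate is `add_x`, the `y`-coordinate `add_y` (divide by `℘z - ℘w ≠ 0`).  To prove the equality of two
`Affine.Point.some`, use `Affine.Point.some.injEq` / `congr` after rewriting the coordinates (`simp only [Affine.Point.some.injEq]`). -/
theorem phi_add_of_ne {z w : ℂ} (hz : z ∉ L.lattice) (hw : w ∉ L.lattice)
    (hne : ℘[L] z ≠ ℘[L] w) : phi L (z + w) = phi L z + phi L w := by
  have hzw := add_notMem_of_ne L hne
  rw [phi_of_notMem L hz, phi_of_notMem L hw, phi_of_notMem L hzw, Affine.Point.add_of_X_ne hne]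
  have hd : ℘[L] z - ℘[L] w ≠ 0 := sub_ne_zero.2 hne
  have hs : (WL L).toAffine.slope (℘[L] z) (℘[L] w) (℘'[L] z / 2) (℘'[L] w / 2) =
      (℘'[L] z - ℘'[L] w) / (℘[L] z - ℘[L] w) / 2 := by
    rw [Affine.slope_of_X_ne hne]
    field_simp
  have ex := add_x L hz hw hne
  have ey := add_y L hz hw hne
  have e1 : (WL L).toAffine.addX (℘[L] z) (℘[L] w)
      ((WL L).toAffine.slope (℘[L] z) (℘[L] w) (℘'[L] z / 2) (℘'[L] w / 2)) = ℘[L] (z + w) := by
    rw [hs, Affine.addX, ex, WL_a₁, WL_a₂]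
    ring
  have e2 : (WL L).toAffine.addY (℘[L] z) (℘[L] w) (℘'[L] z / 2)
      ((WL L).toAffine.slope (℘[L] z) (℘[L] w) (℘'[L] z / 2) (℘'[L] w / 2)) =
      ℘'[L] (z + w) / 2 := by
    rw [Affine.addY, Affine.negAddY, e1, hs, Affine.negY, WL_a₁, WL_a₃]
    apply mul_left_cancel₀ hd
    field_simp
    linear_combination -ey
  simp only [Affine.Point.some.injEq]
  exact ⟨e1.symm, e2.symm⟩

/-- **(H2)** duplication.  PROOF.  If `2z ∈ Λ`: `phi (z + z) = 0`, and `phi z = phi (-z) = - phi z` (`phi_congr`, `phi_neg`), so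
`phi z + phi z = 0`.  Otherwise `℘' z ≠ 0` (`wp'_eq_zero_iff`), `Affine.Point.add_self_of_Y_ne` (`negY = -℘'z/2 ≠ ℘'z/2`),
`Affine.slope_of_Y_ne rfl`: slope `= (3℘² - g₂/4)/(℘'z) = wpp/(2℘')`; coordinates by `dup_poly`, `dup_y` (`z + z = 2 * z`). -/
theorem phi_add_self {z : ℂ} (hz : z ∉ L.lattice) : phi L (z + z) = phi L z + phi L z := by
  by_cases h2z : 2 * z ∈ L.lattice
  · have hzz : z + z ∈ L.lattice := by rwa [← two_mul]
    rw [phi_of_mem L hzz]
    have h1 : phi L z = phi L (-z) := phi_congr L (by rwa [sub_neg_eq_add])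
    rw [phi_neg] at h1
    exact (add_eq_zero_iff_eq_neg.2 h1).symm
  · have hzz : z + z ∉ L.lattice := by rwa [← two_mul]
    have hp : ℘'[L] z ≠ 0 := fun h0 => h2z ((wp'_eq_zero_iff L hz).1 h0)
    have hnegY : (WL L).toAffine.negY (℘[L] z) (℘'[L] z / 2) = -(℘'[L] z / 2) := by
      simp [Affine.negY]
    have hne : ℘'[L] z / 2 ≠ (WL L).toAffine.negY (℘[L] z) (℘'[L] z / 2) := by
      rw [hnegY]
      intro h
      apply hp
      linear_combination h
    have hs : (WL L).toAffine.slope (℘[L] z) (℘[L] z) (℘'[L] z / 2) (℘'[L] z / 2) =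
        wpp L z / (2 * ℘'[L] z) := by
      rw [Affine.slope_of_Y_ne rfl hne, hnegY]
      simp only [WL_a₁, WL_a₂, WL_a₄, wpp]
      field_simp
      ring
    have d1 := dup_poly L hz h2z
    have d2 := dup_y L hz h2z
    rw [← two_mul] at hzz
    have hX : (WL L).toAffine.addX (℘[L] z) (℘[L] z) (wpp L z / (2 * ℘'[L] z)) =
        ℘[L] (2 * z) := by
      simp only [Affine.addX, WL_a₁, WL_a₂]
      field_simp
      linear_combination d1
    have hY : (WL L).toAffine.addY (℘[L] z) (℘[L] z) (℘'[L] z / 2) (wpp L z / (2 * ℘'[L] z)) =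
        ℘'[L] (2 * z) / 2 := by
      simp only [Affine.addY, Affine.negAddY, Affine.negY, hX, WL_a₁, WL_a₃]
      field_simp
      linear_combination -d2
    rw [← two_mul, phi_of_notMem L hzz, phi_of_notMem L hz, Affine.Point.add_self_of_Y_ne hne]
    simp only [Affine.Point.some.injEq]
    rw [hs]
    exact ⟨hX.symm, hY.symm⟩

/-- **(H)** `phi` is additive. -/
theorem phi_add (z w : ℂ) : phi L (z + w) = phi L z + phi L w := by
  by_cases hz : z ∈ L.lattice
  · rw [phi_of_mem L hz, zero_add]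
    exact phi_congr L (by simpa using hz)
  by_cases hw : w ∈ L.lattice
  · rw [phi_of_mem L hw, add_zero]
    exact phi_congr L (by simpa using hw)
  by_cases hne : ℘[L] z = ℘[L] w
  · rcases (wp_eq_iff L hz hw).mp hne with h | h
    · rw [phi_congr L h, ← phi_add_self L hw]
      exact phi_congr L (by simpa using h)
    · rw [phi_of_mem L h]
      have h1 : phi L z = phi L (-w) := phi_congr L (by simpa using h)
      rw [h1, phi_neg, neg_add_cancel]
  · exact phi_add_of_ne L hz hw hne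

/-- the uniformisation homomorphism `ℂ →+ E_L(ℂ)`. -/
def phiHom : ℂ →+ (WL L).toAffine.Point where
  toFun := phi L
  map_zero' := phi_of_mem L (zero_mem _)
  map_add' := phi_add L

@[simp] theorem phiHom_apply (z : ℂ) : phiHom L z = phi L z := rfl

theorem phi_nsmul (n : ℕ) (z : ℂ) : phi L (n * z) = n • phi L z := by
  have := map_nsmul (phiHom L) n z
  simpa [nsmul_eq_mul] using this

theorem phi_eq_iff {z w : ℂ} : phi L z = phi L w ↔ z - w ∈ L.lattice := by
  rw [← phi_eq_zero_iff L, sub_eq_add_neg, phi_add, phi_neg, add_neg_eq_zero]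

end Fermat.Agent.S15.M1a
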