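import Fermat.Agent.S15.M1a.Hom

/-!
# S15 / M1a : torsion points
-/

set_option autoImplicit false

noncomputable section

namespace Fermat.Agent.S15.M1a

open Filter Topology PeriodPair WeierstrassCurve

variable (L : PeriodPair)

/-- the division point with indices `(a, b)`. -/
def divPt (N : ℕ) (a b : ℤ) : ℂ := (a * L.ω₁ + b * L.ω₂) / N

/-- PROOF: `phi_surjective` gives `z`, `phi_nsmul`, `phi_eq_zero_iff`: `N z ∈ Λ`; `PeriodPair.mem_lattice` gives `a, b`. -/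
theorem exists_divPt_of_nsmul_eq_zero {N : ℕ} (hN : 0 < N) (P : (WL L).toAffine.Point)
    (hP : N • P = 0) : ∃ a b : ℤ, P = phi L (divPt L N a b) := by
  obtain ⟨z, rfl⟩ := phi_surjective L P
  rw [← phi_nsmul, phi_eq_zero_iff] at hP
  obtain ⟨a, b, h⟩ := PeriodPair.mem_lattice.mp hP
  refine ⟨a, b, ?_⟩
  have hN' : (N : ℂ) ≠ 0 := Nat.cast_ne_zero.mpr hN.ne'
  have h1 : divPt L N a b = z := by
    rw [divPt, h, mul_div_cancel_left₀ _ hN']
  rw [h1]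

/-- PROOF: `phi_nsmul`, `N * divPt = a ω₁ + b ω₂ ∈ Λ`. -/
theorem nsmul_phi_divPt {N : ℕ} (hN : 0 < N) (a b : ℤ) : N • phi L (divPt L N a b) = 0 := by
  rw [← phi_nsmul, phi_eq_zero_iff]
  have hN' : (N : ℂ) ≠ 0 := Nat.cast_ne_zero.mpr hN.ne'
  have h1 : (N : ℂ) * divPt L N a b = a * L.ω₁ + b * L.ω₂ := by
    rw [divPt]
    field_simp
  rw [h1]
  exact PeriodPair.mem_lattice.mpr ⟨a, b, rfl⟩

/-- PROOF: `phi_eq_zero_iff`; `L.mul_ω₁_add_mul_ω₂_mem_lattice` (with `α = a/N`, `β = b/N` rational), or directly from the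
`ℝ`-linear independence `L.indep`. -/
theorem phi_divPt_eq_zero_iff {N : ℕ} (hN : 0 < N) (a b : ℤ) :
    phi L (divPt L N a b) = 0 ↔ (N : ℤ) ∣ a ∧ (N : ℤ) ∣ b := by
  have hN' : (N : ℂ) ≠ 0 := Nat.cast_ne_zero.mpr hN.ne'
  have hNZ : (N : ℤ) ≠ 0 := Int.natCast_ne_zero.mpr hN.ne'
  have h1 : divPt L N a b
      = (((a : ℚ) / ((N : ℤ) : ℚ) : ℚ) : ℂ) * L.ω₁ + (((b : ℚ) / ((N : ℤ) : ℚ) : ℚ) : ℂ) * L.ω₂ := by
    rw [divPt]
    push_cast
    field_simp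
  rw [phi_eq_zero_iff, h1, PeriodPair.mul_ω₁_add_mul_ω₂_mem_lattice,
    Rat.den_div_intCast_eq_one_iff _ _ hNZ, Rat.den_div_intCast_eq_one_iff _ _ hNZ]

theorem divPt_add (N : ℕ) (a b a' b' : ℤ) :
    divPt L N (a + a') (b + b') = divPt L N a b + divPt L N a' b' := by
  simp only [divPt]
  push_cast
  ring

theorem divPt_smul (N : ℕ) (k a b : ℤ) : divPt L N (k * a) (k * b) = k * divPt L N a b := by
  simp only [divPt]
  push_cast
  ring

end Fermat.Agent.S15.M1a
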